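import Fermat.Agent.S18.RED9269.E1Frac

/-!
# S18, package RED, extra exports (E1) for Theorem T (helper9269), part 2: finite generation

Statements of the T-interface `Fermat/Agent/S18/TInt.lean` (origin/helper2926, v0), verbatim, in the
namespace `Fermat.Agent.S18.RED9269`:

* `exists_fg_fin` : the chart-integral series (chart `j ≠ ∞`) form a finitely generated `A[j]`-module;
* `exists_fg_inf` : the chart-integral series (chart `j ≠ 0`) form a finitely generated
  `A[1/j]`-module.

Route: (1) `q`-expansion principle: the elements of the two chart algebras have `q`-expansions over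
`ℤ_(ℓ)` (`ℤ_(ℓ)((q))` is integrally closed); (2) the chart algebra of `t ∈ {j, 1/j}` is a finite
`ℤ_(ℓ)[t]`-module (Mathlib `IsIntegralClosure.finite`; `ℚ(X₀(N))` is finite over `ℚ(j)` by the landed
S28 span theorem); (3) base change of the generators to `A`.
-/

set_option autoImplicit false
set_option linter.unusedSectionVars false
set_option linter.style.haveILetI false
set_option linter.unusedVariables false

noncomputable section

namespace Fermat.Agent.S18.RED9269

open ModularCurve AlgebraicCurve ModularCurve.IgusaScheme IntermediateField Polynomial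
open Fermat.Agent.S28 Fermat.Agent.S28.QRed

variable (ℓ : ℕ) [Fact ℓ.Prime] (A : ValuationSubring (AlgebraicClosure ℚ)) (N : ℕ) [NeZero N]

set_option quotPrecheck false in
local notation "Rl" => ↥(GaloisRep.ratLocalizedAt ℓ)

set_option quotPrecheck false in
local notation "FF" => ↥(modularFunctionFieldFull N)

local notation "Qb" => AlgebraicClosure ℚ

/-! ### (1) The `q`-expansion principle -/

theorem e1_isPrincipalIdealRing_Zl : IsPrincipalIdealRing Rl := by
  have hp : (Ideal.span {(ℓ : ℤ)}).IsPrime := by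
    rw [Ideal.span_singleton_prime (by exact_mod_cast (Fact.out : ℓ.Prime).ne_zero)]
    exact Nat.prime_iff_prime_int.mp Fact.out
  have hne : Ideal.span {(ℓ : ℤ)} ≠ ⊥ := by
    rw [Ne, Ideal.span_singleton_eq_bot]
    exact_mod_cast (Fact.out : ℓ.Prime).ne_zero
  have h1 : IsLocalization.AtPrime Rl (Ideal.span {(ℓ : ℤ)}) := isLocalization_ratLoc ℓ
  have h2 : IsDiscreteValuationRing Rl :=
    IsLocalization.AtPrime.isDiscreteValuationRing_of_dedekind_domain ℤ hne Rl
  infer_instance

theorem e1_isIntegrallyClosed_laurent : IsIntegrallyClosed (LaurentSeries Rl) := by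
  have := e1_isPrincipalIdealRing_Zl ℓ
  exact isIntegrallyClosed_of_isLocalization (LaurentSeries Rl)
    (Submonoid.powers (PowerSeries.X : PowerSeries Rl))
    (Submonoid.powers_le.mpr (mem_nonZeroDivisors_of_ne_zero PowerSeries.X_ne_zero))

/-- A fraction of series over `ℤ_(ℓ)` which is integral over `ℤ_(ℓ)((q))` is a series over
`ℤ_(ℓ)`. -/
theorem e1_exists_iota_of_isIntegralElem {x : LaurentSeries ℚ} (hx : IsFrac ℓ x)
    (hint : (iota ℓ).IsIntegralElem x) : ∃ f : LaurentSeries Rl, iota ℓ f = x := by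
  have hic := e1_isIntegrallyClosed_laurent ℓ
  obtain ⟨f, g, hg, hfg⟩ := hx
  obtain ⟨p, hp, hpx⟩ := hint
  let ι' : FractionRing (LaurentSeries Rl) →+* LaurentSeries ℚ :=
    IsFractionRing.lift (iota_injective ℓ)
  have hι' : ∀ a, ι' (algebraMap (LaurentSeries Rl) (FractionRing (LaurentSeries Rl)) a) =
      iota ℓ a :=
    fun a => IsFractionRing.lift_algebraMap (iota_injective ℓ) a
  have hg' : algebraMap (LaurentSeries Rl) (FractionRing (LaurentSeries Rl)) g ≠ 0 := by
    rw [Ne, map_eq_zero_iff _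
      (IsFractionRing.injective (LaurentSeries Rl) (FractionRing (LaurentSeries Rl)))]
    exact hg
  have hκ : ι' (algebraMap _ (FractionRing (LaurentSeries Rl)) f /
      algebraMap _ (FractionRing (LaurentSeries Rl)) g) = x := by
    have h1 : ι' (algebraMap _ (FractionRing (LaurentSeries Rl)) f /
        algebraMap _ (FractionRing (LaurentSeries Rl)) g) * iota ℓ g = iota ℓ f := by
      rw [← hι' g, ← map_mul, div_mul_cancel₀ _ hg', hι']
    have hg2 : iota ℓ g ≠ 0 := iota_ne_zero ℓ hg
    exact mul_right_cancel₀ hg2 (h1.trans hfg.symm)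
  have hint' : IsIntegral (LaurentSeries Rl)
      (algebraMap _ (FractionRing (LaurentSeries Rl)) f /
        algebraMap _ (FractionRing (LaurentSeries Rl)) g) := by
    refine ⟨p, hp, ?_⟩
    apply ι'.injective
    rw [map_zero, Polynomial.hom_eval₂, hκ]
    have h2 : ι'.comp (algebraMap (LaurentSeries Rl) (FractionRing (LaurentSeries Rl))) =
        iota ℓ := RingHom.ext hι'
    rw [h2]
    exact hpx
  obtain ⟨y, hy⟩ := IsIntegrallyClosed.isIntegral_iff.mp hint'
  exact ⟨y, by rw [← hι', hy, hκ]⟩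

omit [Fact ℓ.Prime] in
/-- The `q`-expansion of `1/j` has coefficients in `ℤ_(ℓ)`. -/
theorem e1_valF_jFull_inv : valF N (jFull N)⁻¹ = iota ℓ (Ring.inverse (jqModC Rl)) := by
  have h1 : Ring.inverse (jqModC Rl) * jqModC Rl = 1 :=
    Ring.inverse_mul_cancel _ (isUnit_jqModC Rl)
  have h2 := congrArg (iota ℓ) h1
  rw [map_mul, map_one, iota_jqModC] at h2
  rw [map_inv₀, valF_jFull]
  exact (eq_inv_of_mul_eq_one_left h2).symm

/-- **`q`-expansion principle**: the elements of the chart algebras have `q`-expansions over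
`ℤ_(ℓ)`. -/
theorem exists_iota_of_mem_chartAlg {S : Set FF} (hS : S ⊆ {jFull N, (jFull N)⁻¹})
    (x : FF) (hx : x ∈ chartAlg N ℓ S) : ∃ f : LaurentSeries Rl, valF N x = iota ℓ f := by
  suffices h : ∃ f : LaurentSeries Rl, iota ℓ f = valF N x by
    obtain ⟨f, hf⟩ := h
    exact ⟨f, hf.symm⟩
  apply e1_exists_iota_of_isIntegralElem ℓ (isFrac_of_mem_full ℓ N x.2)
  have hadj : ∀ a ∈ Algebra.adjoin Rl S, valF N a ∈ (iota ℓ).range := by
    intro a ha
    induction ha using Algebra.adjoin_induction with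
    | mem s hs =>
      rcases hS hs with rfl | rfl
      · exact ⟨jqModC Rl, by rw [valF_jFull, iota_jqModC]⟩
      · exact ⟨_, (e1_valF_jFull_inv ℓ N).symm⟩
    | algebraMap r => exact ⟨HahnSeries.C r, by rw [valF_algebraMap, iota_C]⟩
    | add a b _ _ iha ihb => rw [map_add]; exact add_mem iha ihb
    | mul a b _ _ iha ihb => rw [map_mul]; exact mul_mem iha ihb
  obtain ⟨p, hp, hpx⟩ := (mem_chartAlg_iff N ℓ).mp hx
  choose ψ₀ hψ₀ using fun a : Algebra.adjoin Rl S => hadj a a.2
  have hψ₀' : ∀ a : Algebra.adjoin Rl S, iota ℓ (ψ₀ a) = valF N (a : FF) := hψ₀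
  let ψ : Algebra.adjoin Rl S →+* LaurentSeries Rl :=
    { toFun := ψ₀
      map_one' := iota_injective ℓ (by rw [hψ₀', map_one]; simp)
      map_mul' := fun a b => iota_injective ℓ (by
        rw [hψ₀', map_mul, hψ₀', hψ₀']; simp)
      map_zero' := iota_injective ℓ (by rw [hψ₀', map_zero]; simp)
      map_add' := fun a b => iota_injective ℓ (by
        rw [hψ₀', map_add, hψ₀', hψ₀']; simp) }
  have hψ : (iota ℓ).comp ψ = (valF N).comp (algebraMap (Algebra.adjoin Rl S) FF) :=
    RingHom.ext fun a => hψ₀' a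
  refine ⟨p.map ψ, hp.map ψ, ?_⟩
  rw [Polynomial.eval₂_map, hψ]
  show Polynomial.eval₂ _ (valF N x) p = 0
  rw [← Polynomial.hom_eval₂]
  have : Polynomial.eval₂ (algebraMap (Algebra.adjoin Rl S) FF) x p = 0 := hpx
  rw [this, map_zero]

/-! ### (2) The chart algebra of `t` is a finite `ℤ_(ℓ)[t]`-module -/

/-- `ℚ(X₀(N))` is finite over `Frac(ℤ_(ℓ)[X])`, `X ↦ t`, if `j` lies in the image of `Frac(ℤ_(ℓ)[X])`. -/
theorem finiteDimensional_fracPoly (t : FF) (ht : Function.Injective (evF N ℓ t))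
    (τ : FractionRing Rl[X]) (hτ : IsFractionRing.lift ht τ = jFull N) :
    letI : Algebra (FractionRing Rl[X]) FF := (IsFractionRing.lift ht).toAlgebra
    FiniteDimensional (FractionRing Rl[X]) FF := by
  letI algK : Algebra (FractionRing Rl[X]) FF := (IsFractionRing.lift ht).toAlgebra
  obtain ⟨D⟩ := exists_ANData N
  let ρ : FractionRing Rl[X] →+* LaurentSeries ℚ :=
    (valF N).comp (algebraMap (FractionRing Rl[X]) FF)
  letI : Algebra (FractionRing Rl[X]) (LaurentSeries ℚ) := ρ.toAlgebra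
  haveI : IsScalarTower (FractionRing Rl[X]) FF (LaurentSeries ℚ) :=
    IsScalarTower.of_algebraMap_eq (fun _ => rfl)
  let θ : ℚ[X] →+* FractionRing Rl[X] :=
    Polynomial.eval₂RingHom (algebraMap ℚ (FractionRing Rl[X])) τ
  have hρθ : ∀ c : ℚ[X], ρ (θ c) = aeval jq c := by
    have h : ρ.comp θ = ((aeval jq : ℚ[X] →ₐ[ℚ] LaurentSeries ℚ) : ℚ[X] →+* LaurentSeries ℚ) := by
      apply Polynomial.ringHom_ext
      · intro a
        simp only [RingHom.comp_apply, RingHom.coe_coe, aeval_C, θ, coe_eval₂RingHom, eval₂_C]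
        exact RingHom.congr_fun (Subsingleton.elim (ρ.comp (algebraMap ℚ (FractionRing Rl[X])))
          (algebraMap ℚ (LaurentSeries ℚ))) a
      · simp only [RingHom.comp_apply, RingHom.coe_coe, aeval_X, θ, coe_eval₂RingHom, eval₂_X]
        show valF N (IsFractionRing.lift ht τ) = jq
        rw [hτ, valF_jFull]
    exact fun c => RingHom.congr_fun h c
  let W : Submodule (FractionRing Rl[X]) (LaurentSeries ℚ) :=
    Submodule.span (FractionRing Rl[X])
      (Set.range fun i : Fin (Fintype.card D.ι) => (yUnit ℚ N : LaurentSeries ℚ) ^ (i : ℕ))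
  haveI : FiniteDimensional (FractionRing Rl[X]) W :=
    FiniteDimensional.span_of_finite _ (Set.finite_range _)
  have hmem : ∀ x : FF,
      (IsScalarTower.toAlgHom (FractionRing Rl[X]) FF (LaurentSeries ℚ)).toLinearMap x ∈ W := by
    intro x
    obtain ⟨b, a, hb, hrel⟩ := span_of_ANData N D (x : LaurentSeries ℚ) x.2
    have hb' : ρ (θ b) ≠ 0 := by
      rw [hρθ]
      intro h0
      rw [← jqModC_rat] at h0
      exact hb (eq_zero_of_aeval_jqModC_eq_zero ℚ h0)
    have hx : (x : LaurentSeries ℚ) =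
        ∑ i, (θ (a i) / θ b) • ((yUnit ℚ N : LaurentSeries ℚ) ^ (i : ℕ)) := by
      have h1 : (x : LaurentSeries ℚ) * ρ (θ b) =
          (∑ i, (θ (a i) / θ b) • ((yUnit ℚ N : LaurentSeries ℚ) ^ (i : ℕ))) * ρ (θ b) := by
        rw [hρθ, hrel, Finset.sum_mul]
        refine Finset.sum_congr rfl fun i _ => ?_
        rw [Algebra.smul_def]
        show _ = ρ (θ (a i) / θ b) * _ * _
        rw [map_div₀, hρθ, hρθ]
        have hne : aeval jq b ≠ 0 := by rw [← hρθ]; exact hb'
        field_simp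
      exact mul_right_cancel₀ hb' h1
    show (x : LaurentSeries ℚ) ∈ W
    rw [hx]
    exact Submodule.sum_mem _ fun i _ => Submodule.smul_mem _ _ (Submodule.subset_span ⟨i, rfl⟩)
  let f : FF →ₗ[FractionRing Rl[X]] W :=
    LinearMap.codRestrict W
      (IsScalarTower.toAlgHom (FractionRing Rl[X]) FF (LaurentSeries ℚ)).toLinearMap hmem
  have hf : Function.Injective f := by
    intro x y h
    have := congrArg (fun z : W => (z : LaurentSeries ℚ)) h
    exact Subtype.val_injective this
  exact FiniteDimensional.of_injective f hf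

/-- Polynomials in `t` lie in the chart algebra of `t`. -/
theorem evF_mem_chartAlg (t : FF) (p : Rl[X]) : evF N ℓ t p ∈ chartAlg N ℓ {t} := by
  apply adjoin_le_chartAlg N ℓ
  show (aeval t p : FF) ∈ Algebra.adjoin Rl {t}
  rw [Algebra.adjoin_singleton_eq_range_aeval]
  exact ⟨p, rfl⟩

/-- The chart algebra of `t` is a finitely generated `ℤ_(ℓ)[t]`-module. -/
theorem chartAlg_fg_of (t : FF) (ht : Function.Injective (evF N ℓ t))
    (τ : FractionRing Rl[X]) (hτ : IsFractionRing.lift ht τ = jFull N) :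
    ∃ G : Finset (chartAlg N ℓ {t}), ∀ x : chartAlg N ℓ {t},
      ∃ f : chartAlg N ℓ {t} → Rl[X], (x : FF) = ∑ g ∈ G, evF N ℓ t (f g) * (g : FF) := by
  letI algP : Algebra Rl[X] FF := (evF N ℓ t).toAlgebra
  letI algK : Algebra (FractionRing Rl[X]) FF := (IsFractionRing.lift ht).toAlgebra
  haveI : IsScalarTower Rl[X] (FractionRing Rl[X]) FF :=
    IsScalarTower.of_algebraMap_eq (fun p => (IsFractionRing.lift_algebraMap ht p).symm)
  letI algC : Algebra Rl[X] (chartAlg N ℓ {t}) :=
    (RingHom.codRestrict (evF N ℓ t) (chartAlg N ℓ {t}) (evF_mem_chartAlg ℓ N t)).toAlgebra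
  haveI : IsScalarTower Rl[X] (chartAlg N ℓ {t}) FF :=
    IsScalarTower.of_algebraMap_eq (fun _ => rfl)
  haveI : IsIntegralClosure (chartAlg N ℓ {t}) Rl[X] FF :=
    { algebraMap_injective := Subtype.val_injective
      isIntegral_iff := by
        intro x
        constructor
        · intro h
          exact ⟨⟨x, (mem_chartAlg_iff N ℓ).mpr
            ((isIntegral_adjoin_singleton_iff t x).mpr h)⟩, rfl⟩
        · rintro ⟨y, rfl⟩
          exact (isIntegral_adjoin_singleton_iff t _).mp ((mem_chartAlg_iff N ℓ).mp y.2) }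
  haveI h1 : FiniteDimensional (FractionRing Rl[X]) FF := finiteDimensional_fracPoly ℓ N t ht τ hτ
  haveI h2 := e1_isPrincipalIdealRing_Zl ℓ
  have h3 : Module.Finite Rl[X] (chartAlg N ℓ {t}) :=
    IsIntegralClosure.finite Rl[X] (FractionRing Rl[X]) FF (chartAlg N ℓ {t})
  obtain ⟨G, hG⟩ := (Module.Finite.fg_top : (⊤ : Submodule Rl[X] (chartAlg N ℓ {t})).FG)
  refine ⟨G, fun x => ?_⟩
  have hx : x ∈ Submodule.span Rl[X] (G : Set (chartAlg N ℓ {t})) := by rw [hG]; trivial
  obtain ⟨f, -, hf⟩ := Submodule.mem_span_finset.mp hx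
  refine ⟨f, ?_⟩
  have hsmul : ∀ (p : Rl[X]) (g : chartAlg N ℓ {t}),
      ((p • g : chartAlg N ℓ {t}) : FF) = evF N ℓ t p * (g : FF) := fun p g => rfl
  have hsum : ∀ (s : Finset (chartAlg N ℓ {t})) (F' : chartAlg N ℓ {t} → chartAlg N ℓ {t}),
      ((∑ g ∈ s, F' g : chartAlg N ℓ {t}) : FF) = ∑ g ∈ s, (F' g : FF) := by
    intro s F'
    exact map_sum (chartAlg N ℓ {t}).val F' s
  rw [← hf, hsum]
  exact Finset.sum_congr rfl fun g _ => hsmul _ _

/-- The chart `j ≠ ∞` is a finitely generated `ℤ_(ℓ)[j]`-module. -/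
theorem chartAlgFin_fg :
    ∃ G : Finset (chartAlgFin N ℓ), ∀ x : chartAlgFin N ℓ,
      ∃ f : chartAlgFin N ℓ → Rl[X],
        (x : FF) = ∑ g ∈ G, evF N ℓ (jFull N) (f g) * (g : FF) := by
  refine chartAlg_fg_of ℓ N (jFull N) (evF_jFull_injective N ℓ)
    (algebraMap Rl[X] (FractionRing Rl[X]) X) ?_
  rw [IsFractionRing.lift_algebraMap, evF_X]

/-- The chart `j ≠ 0` is a finitely generated `ℤ_(ℓ)[1/j]`-module. -/
theorem chartAlgInf_fg :
    ∃ G : Finset (chartAlgInf N ℓ), ∀ x : chartAlgInf N ℓ,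
      ∃ f : chartAlgInf N ℓ → Rl[X],
        (x : FF) = ∑ g ∈ G, evF N ℓ (jFull N)⁻¹ (f g) * (g : FF) := by
  refine chartAlg_fg_of ℓ N (jFull N)⁻¹ (evF_jFull_inv_injective N ℓ)
    (algebraMap Rl[X] (FractionRing Rl[X]) X)⁻¹ ?_
  rw [map_inv₀, IsFractionRing.lift_algebraMap, evF_X, inv_inv]

/-! ### (3) Base change to `A` -/

variable {ℓ A N} in
/-- A series over `A` with the `q`-expansion of the chart element `x`. -/
def liftA (hA : A.LiesOverPrime ℓ) {S : Set FF} (hS : S ⊆ {jFull N, (jFull N)⁻¹})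
    (x : chartAlg N ℓ S) : LaurentSeries A :=
  coeffMap (zlToA hA) (Classical.choose (exists_iota_of_mem_chartAlg ℓ N hS x x.2))

variable {ℓ A N} in
theorem coeffMap_subtype_liftA (hA : A.LiesOverPrime ℓ) {S : Set FF}
    (hS : S ⊆ {jFull N, (jFull N)⁻¹}) (x : chartAlg N ℓ S) :
    coeffMap A.subtype (liftA hA hS x) = coeffEmb Qb ((x : FF) : LaurentSeries ℚ) := by
  unfold liftA
  rw [coeffMap_subtype_zlToA, ← Classical.choose_spec (exists_iota_of_mem_chartAlg ℓ N hS x x.2)]
  rfl

variable {ℓ A N} in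
theorem isChartInt_liftA (hA : A.LiesOverPrime ℓ) {S : Set FF}
    (hS : S ⊆ {jFull N, (jFull N)⁻¹}) (x : chartAlg N ℓ S) :
    IsChartInt ℓ A N S (liftA hA hS x) := by
  show coeffMap A.subtype (liftA hA hS x) ∈ chartSpan ℓ A N S
  rw [coeffMap_subtype_liftA]
  exact gen_mem_chartSpan ℓ A N S x

variable {ℓ A N} in
theorem liftA_injective (hA : A.LiesOverPrime ℓ) {S : Set FF}
    (hS : S ⊆ {jFull N, (jFull N)⁻¹}) : Function.Injective (liftA hA hS) := by
  intro x y h
  have h1 := congrArg (coeffMap A.subtype) h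
  rw [coeffMap_subtype_liftA, coeffMap_subtype_liftA] at h1
  exact Subtype.ext (Subtype.ext ((coeffEmb Qb).injective h1))

variable {ℓ A N} in
/-- Evaluation at `tA ∈ A((q))` of a polynomial over `ℤ_(ℓ)`, if `tA` has the `q`-expansion of `t`. -/
theorem coeffMap_subtype_eval₂_map (hA : A.LiesOverPrime ℓ) (t : FF) (tA : LaurentSeries A)
    (htA : coeffMap A.subtype tA = coeffEmb Qb (valF N t)) (p : Rl[X]) :
    coeffMap A.subtype ((p.map (zlToA hA)).eval₂ (HahnSeries.C : A →+* LaurentSeries A) tA) =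
      coeffEmb Qb (valF N (evF N ℓ t p)) := by
  have h : ((coeffMap A.subtype).comp
      (Polynomial.eval₂RingHom (HahnSeries.C : A →+* LaurentSeries A) tA)).comp
        (mapRingHom (zlToA hA)) = ((coeffEmb Qb).comp (valF N)).comp (evF N ℓ t) := by
    apply Polynomial.ringHom_ext
    · intro a
      simp only [RingHom.comp_apply, coe_mapRingHom, map_C, coe_eval₂RingHom, eval₂_C, evF_C,
        valF_algebraMap]
      rw [HahnSeries.C_apply, coeffMap_single, algebraMap_laurent_eq_single]
      unfold coeffEmb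
      rw [coeffMap_single]
      rfl
    · simp only [RingHom.comp_apply, coe_mapRingHom, map_X, coe_eval₂RingHom, eval₂_X, evF_X]
      exact htA
  exact RingHom.congr_fun h p

variable {ℓ A N} in
/-- Finite generation over `A[tA]` of the chart-integral series, from finite generation of the chart
algebra over `ℤ_(ℓ)[t]`. -/
theorem exists_fg_of (hA : A.LiesOverPrime ℓ) (t : FF) (ht : t = jFull N ∨ t = (jFull N)⁻¹)
    (tA : LaurentSeries A) (htA : coeffMap A.subtype tA = coeffEmb Qb (valF N t))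
    (hfg : ∃ G : Finset (chartAlg N ℓ {t}), ∀ x : chartAlg N ℓ {t},
      ∃ f : chartAlg N ℓ {t} → Rl[X], (x : FF) = ∑ g ∈ G, evF N ℓ t (f g) * (g : FF)) :
    ∃ s : Finset (LaurentSeries A), (∀ e ∈ s, IsChartInt ℓ A N {t} e) ∧
      ∀ y : LaurentSeries A, IsChartInt ℓ A N {t} y →
        ∃ p : LaurentSeries A → A[X],
          y = ∑ e ∈ s, (p e).eval₂ (HahnSeries.C : A →+* LaurentSeries A) tA * e := by
  classical
  obtain ⟨G, hG⟩ := hfg
  have hS : ({t} : Set FF) ⊆ {jFull N, (jFull N)⁻¹} := by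
    rcases ht with rfl | rfl <;> simp
  refine ⟨G.image (liftA hA hS), ?_, ?_⟩
  · intro e he
    obtain ⟨g, -, rfl⟩ := Finset.mem_image.mp he
    exact isChartInt_liftA hA hS g
  · intro y hy
    have key : ∀ z ∈ chartSpan ℓ A N {t}, ∃ P : chartAlg N ℓ {t} → A[X],
        z = ∑ g ∈ G, coeffMap A.subtype
          ((P g).eval₂ (HahnSeries.C : A →+* LaurentSeries A) tA * liftA hA hS g) := by
      intro z hz
      induction hz using Submodule.span_induction with
      | mem z hz =>
        obtain ⟨x, rfl⟩ := hz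
        obtain ⟨f, hf⟩ := hG x
        refine ⟨fun g => (f g).map (zlToA hA), ?_⟩
        show coeffEmb Qb (valF N (x : FF)) = _
        rw [hf, map_sum, map_sum]
        refine Finset.sum_congr rfl fun g _ => ?_
        rw [map_mul, map_mul, map_mul, coeffMap_subtype_eval₂_map hA t tA htA,
          coeffMap_subtype_liftA]
        rfl
      | zero =>
        refine ⟨fun _ => 0, ?_⟩
        simp
      | add z w _ _ hz hw =>
        obtain ⟨P, rfl⟩ := hz
        obtain ⟨Q, rfl⟩ := hw
        refine ⟨fun g => P g + Q g, ?_⟩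
        rw [← Finset.sum_add_distrib]
        refine Finset.sum_congr rfl fun g _ => ?_
        rw [eval₂_add, add_mul, map_add]
      | smul a z _ hz =>
        obtain ⟨P, rfl⟩ := hz
        refine ⟨fun g => C a * P g, ?_⟩
        rw [Finset.smul_sum]
        refine Finset.sum_congr rfl fun g _ => ?_
        rw [eval₂_mul, eval₂_C, mul_assoc, coeffMap_subtype_C_mul]
    obtain ⟨P, hP⟩ := key _ hy
    have hy' : y = ∑ g ∈ G,
        (P g).eval₂ (HahnSeries.C : A →+* LaurentSeries A) tA * liftA hA hS g := by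
      apply coeffMap_subtype_injective A
      rw [hP, map_sum]
    refine ⟨fun e => P (Function.invFun (liftA hA hS) e), ?_⟩
    rw [Finset.sum_image (fun a _ b _ h => liftA_injective hA hS h), hy']
    refine Finset.sum_congr rfl fun g _ => ?_
    beta_reduce
    rw [Function.leftInverse_invFun (liftA_injective hA hS) g]

variable {ℓ A N} in
/-- **RED (E1), chart fin** (statement of `TInt.lean`): the chart-integral series form a finitely
generated `A[j]`-module. -/
theorem exists_fg_fin (hℓN : ¬ ℓ ∣ N) (hA : A.LiesOverPrime ℓ) :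
    ∃ s : Finset (LaurentSeries A), (∀ e ∈ s, IsIntFin ℓ A N e) ∧
      ∀ y : LaurentSeries A, IsIntFin ℓ A N y →
        ∃ p : LaurentSeries A → A[X],
          y = ∑ e ∈ s, (p e).eval₂ (HahnSeries.C : A →+* LaurentSeries A) (jqModC A) * e :=
  exists_fg_of hA (jFull N) (Or.inl rfl) (jqModC A) (coeffMap_subtype_jqModC A)
    (chartAlgFin_fg ℓ N)

variable {ℓ A N} in
/-- **RED (E1), chart inf** (statement of `TInt.lean`): the chart-integral series form a finitely
generated `A[1/j]`-module. -/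
theorem exists_fg_inf (hℓN : ¬ ℓ ∣ N) (hA : A.LiesOverPrime ℓ) :
    ∃ s : Finset (LaurentSeries A), (∀ e ∈ s, IsIntInf ℓ A N e) ∧
      ∀ y : LaurentSeries A, IsIntInf ℓ A N y →
        ∃ p : LaurentSeries A → A[X],
          y = ∑ e ∈ s, (p e).eval₂ (HahnSeries.C : A →+* LaurentSeries A) (jinvA A) * e :=
  exists_fg_of hA (jFull N)⁻¹ (Or.inr rfl) (jinvA A)
    (by rw [coeffMap_subtype_jinvA, map_inv₀ (valF N)]; rfl) (chartAlgInf_fg ℓ N)

end Fermat.Agent.S18.RED9269
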