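import Fermat.Agent.S18.RED9269.Frac
import Fermat.Agent.S28.Tensor

/-!
# S18, package RED, extra exports (E1) for Theorem T (helper9269), part 1: `Frac(red chart) = Ft`

Statements of the T-interface `Fermat/Agent/S18/TInt.lean` (origin/helper2926, v0), verbatim, in the
namespace `Fermat.Agent.S18.RED9269`:

* `exists_frac_red_fin` : every `f ∈ Ft A N` is a quotient `red y₁ / red y₂` with `y₁, y₂` integral for
  the chart `j ≠ ∞` and `red y₂ ≠ 0`;
* `exists_frac_red_inf` : the same for the chart `j ≠ 0`.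

Ingredients (all from the landed S28 tree):
* `exists_primitive_denominator` : for `z ∈ ℚ(X₀(N))` with a `ℤ_(ℓ)`-integral `q`-expansion there is
  `d₀ ∈ ℤ_(ℓ)[X]`, `d₀ ≢ 0 mod ℓ`, with `d₀(j) z` in the chart `j ≠ ∞` (`QRed.key_induction`);
* `exists_pow_jinv_mul` : a chart-fin-integral series becomes chart-inf-integral after multiplication
  by a power of `1/j` (Prelude `exists_pow_mul_mem_chartAlg`).
-/

set_option autoImplicit false
set_option linter.unusedSectionVars false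

noncomputable section

namespace Fermat.Agent.S18.RED9269

open ModularCurve AlgebraicCurve ModularCurve.IgusaScheme IntermediateField Polynomial
open Fermat.Agent.S28 Fermat.Agent.S28.QRed

variable (ℓ : ℕ) [Fact ℓ.Prime] (A : ValuationSubring (AlgebraicClosure ℚ)) (N : ℕ) [NeZero N]

set_option quotPrecheck false in
local notation "Rl" => ↥(GaloisRep.ratLocalizedAt ℓ)

set_option quotPrecheck false in
local notation "FF" => ↥(modularFunctionFieldFull N)

local notation "Qb" => AlgebraicClosure ℚ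

/-! ### Generic: quotients of a ring hom into a field form a subfield -/

/-- Fractions of a ring hom into a field: the set of quotients `T a / T b` is a subfield. -/
theorem e1_frac_closure {B E F₀ : Type*} [CommRing B] [Field E] [Field F₀] [Algebra F₀ E]
    (T : B →+* E) (S : Set E)
    (hconst : ∀ c : F₀, ∃ a b : B, T b ≠ 0 ∧ algebraMap F₀ E c * T b = T a)
    (hgen : ∀ s ∈ S, ∃ a b : B, T b ≠ 0 ∧ s * T b = T a)
    (w : E) (hw : w ∈ IntermediateField.adjoin F₀ S) :
    ∃ a b : B, T b ≠ 0 ∧ w * T b = T a := by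
  induction hw using IntermediateField.adjoin_induction with
  | mem s hs => exact hgen s hs
  | algebraMap c => exact hconst c
  | add x y _ _ hx hy =>
    obtain ⟨a₁, b₁, hb₁, e₁⟩ := hx
    obtain ⟨a₂, b₂, hb₂, e₂⟩ := hy
    refine ⟨a₁ * b₂ + a₂ * b₁, b₁ * b₂, by rw [map_mul]; exact mul_ne_zero hb₁ hb₂, ?_⟩
    rw [map_add, map_mul, map_mul, map_mul, ← e₁, ← e₂]
    ring
  | inv x _ hx =>
    obtain ⟨a, b, hb, e⟩ := hx
    by_cases ha : T a = 0
    · have hx0 : x = 0 := by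
        rw [ha] at e
        exact (mul_eq_zero.mp e).resolve_right hb
      exact ⟨0, 1, by rw [map_one]; exact one_ne_zero, by rw [hx0, inv_zero, zero_mul, map_zero]⟩
    · have hx0 : x ≠ 0 := by
        rintro rfl
        rw [zero_mul] at e
        exact ha e.symm
      refine ⟨b, a, ha, ?_⟩
      rw [← e, ← mul_assoc, inv_mul_cancel₀ hx0, one_mul]
  | mul x y _ _ hx hy =>
    obtain ⟨a₁, b₁, hb₁, e₁⟩ := hx
    obtain ⟨a₂, b₂, hb₂, e₂⟩ := hy
    refine ⟨a₁ * a₂, b₁ * b₂, by rw [map_mul]; exact mul_ne_zero hb₁ hb₂, ?_⟩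
    rw [map_mul, map_mul, ← e₁, ← e₂]
    ring

/-! ### The chart-integral series as a subring -/

/-- The chart-integral series form a subring of `A((q))`. -/
def chartSubring (S : Set FF) : Subring (LaurentSeries A) where
  carrier := {y | IsChartInt ℓ A N S y}
  mul_mem' := fun hy hz => isChartInt_mul ℓ A N S hy hz
  one_mem' := isChartInt_one ℓ A N S
  add_mem' := fun hy hz => isChartInt_add ℓ A N S hy hz
  zero_mem' := isChartInt_zero ℓ A N S
  neg_mem' := fun hy => isChartInt_neg ℓ A N S hy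

theorem mem_chartSubring (S : Set FF) (y : LaurentSeries A) :
    y ∈ chartSubring ℓ A N S ↔ IsChartInt ℓ A N S y := Iff.rfl

/-- Reduction of the chart-integral series. -/
def redSub (S : Set FF) :
    chartSubring ℓ A N S →+* LaurentSeries (IsLocalRing.ResidueField A) :=
  (coeffMap (IsLocalRing.residue A)).comp (chartSubring ℓ A N S).subtype

theorem redSub_apply (S : Set FF) (y : chartSubring ℓ A N S) :
    redSub ℓ A N S y = coeffMap (IsLocalRing.residue A) (y : LaurentSeries A) := rfl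

/-! ### Reduction of `ℤ_(ℓ)`-series over `A` -/

variable {ℓ A} in
/-- The residue field of `A` has characteristic `ℓ`. -/
theorem e1_charP (hA : A.LiesOverPrime ℓ) : CharP (IsLocalRing.ResidueField A) ℓ := by
  have hmem : ((ℓ : ℕ) : A) ∈ IsLocalRing.maximalIdeal A := by
    rw [← ValuationSubring.coe_mem_nonunits_iff]
    have : (((ℓ : ℕ) : A) : AlgebraicClosure ℚ) = (ℓ : AlgebraicClosure ℚ) := by simp
    rw [this]
    exact hA
  have hzero : ((ℓ : ℕ) : IsLocalRing.ResidueField A) = 0 := by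
    have h1 : IsLocalRing.residue A ((ℓ : ℕ) : A) = 0 :=
      (IsLocalRing.residue_eq_zero_iff _).mpr hmem
    rwa [map_natCast] at h1
  exact (CharP.charP_iff_prime_eq_zero (Fact.out : ℓ.Prime)).mpr hzero

variable {ℓ A} in
/-- Reduction of a `ℤ_(ℓ)`-series over `A` factors through reduction mod `ℓ`. -/
theorem coeffMap_residue_zlToA (hA : A.LiesOverPrime ℓ) (g : LaurentSeries Rl) :
    haveI := e1_charP hA
    coeffMap (IsLocalRing.residue A) (coeffMap (zlToA hA) g) =
      coeffMap (ZMod.castHom (dvd_refl ℓ) (IsLocalRing.ResidueField A)) (red ℓ g) := by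
  have := e1_charP hA
  unfold red
  rw [coeffMap_coeffMap, coeffMap_coeffMap]
  exact coeffMap_congr (Zl_ringHom_ext ℓ _ _) g

variable {ℓ A} in
/-- A polynomial in `j` over `ℤ_(ℓ)` which is nonzero mod `ℓ` has nonzero reduction. -/
theorem coeffMap_residue_polyA_ne_zero (hA : A.LiesOverPrime ℓ) {p : Rl[X]}
    (hp : p.map (rho0 ℓ) ≠ 0) : coeffMap (IsLocalRing.residue A) (polyA hA p) ≠ 0 := by
  have := e1_charP hA
  unfold polyA
  rw [coeffMap_residue_zlToA, red_aeval]
  intro h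
  apply hp
  apply eq_zero_of_aeval_jqModC_eq_zero (ZMod ℓ)
  exact IntY1829.coeffMap_injective _
    (ZMod.castHom (dvd_refl ℓ) (IsLocalRing.ResidueField A)).injective (by rw [h, map_zero])

/-! ### Primitive denominators -/

variable {ℓ N} in
/-- For `z ∈ ℚ(X₀(N))` with a `ℤ_(ℓ)`-integral `q`-expansion there is `d₀ ∈ ℤ_(ℓ)[X]`, nonzero
mod `ℓ`, such that `d₀(j) z` lies in the chart `j ≠ ∞`. -/
theorem exists_primitive_denominator (hℓN : ¬ ℓ ∣ N) (z : FF) (g₀ : LaurentSeries Rl)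
    (hz : valF N z = iota ℓ g₀) :
    ∃ d₀ : Rl[X], d₀.map (rho0 ℓ) ≠ 0 ∧ evF N ℓ (jFull N) d₀ * z ∈ chartAlgFin N ℓ := by
  obtain ⟨D⟩ := exists_ANData N
  have H : Interface N ℓ (Fintype.card D.ι)
      (fun i => (yUnit Rl N : LaurentSeries Rl) ^ (i : ℕ)) :=
    interface_of_yUnit N ℓ _ (isIntegral_yUnit N ℓ hℓN D)
      (linearIndependent_red_yUnit N ℓ hℓN D) (span_of_ANData N D)
  obtain ⟨b, a, hb, hrel⟩ := H.span (valF N z) z.2
  obtain ⟨m, b', a', hm, hb', ha'⟩ := exists_common_int_mul ℓ b a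
  have hmQ : (m : ℚ) ≠ 0 := fun h => hm (Subtype.ext h)
  have hb'0 : b' ≠ 0 := by
    intro h
    rw [h, Polynomial.map_zero] at hb'
    exact (mul_ne_zero (C_ne_zero.mpr hmQ) hb) hb'.symm
  have hrel' : valF N z * iota ℓ (aeval (jqModC Rl) b') =
      iota ℓ (∑ i, aeval (jqModC Rl) (a' i) * (yUnit Rl N : LaurentSeries Rl) ^ (i : ℕ)) := by
    rw [iota_aeval, hb', map_sum]
    simp only [map_mul, iota_aeval, ha', aeval_C]
    rw [mul_left_comm, hrel, Finset.mul_sum]
    exact Finset.sum_congr rfl fun i _ => by ring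
  obtain ⟨k, d₀, rfl, hd₀⟩ := poly_exists_eq_pow_mul ℓ b' hb'0
  have hw : toQ ℓ (algebraMap (LaurentSeries Rl) (Ploc ℓ) g₀) = valF N z := by
    rw [toQ_algebraMap, hz]
  rw [← hw] at hrel'
  obtain ⟨a'', ha''⟩ := key_induction ℓ _ _ H.indep _ k d₀ a' hrel'
  rw [hw] at ha''
  refine ⟨d₀, hd₀, ?_⟩
  have hval : valF N (evF N ℓ (jFull N) d₀ * z) =
      iota ℓ (∑ i, aeval (jqModC Rl) (a'' i) * (yUnit Rl N : LaurentSeries Rl) ^ (i : ℕ)) := by
    rw [map_mul, valF_evF_jFull, mul_comm, ha'']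
  have h₂ : (evF N ℓ (jFull N)).IsIntegralElem (evF N ℓ (jFull N) d₀ * z) := by
    apply isIntegralElem_of_valF
    rw [hval, map_sum]
    refine Finset.sum_induction _ _ (fun _ _ => RingHom.IsIntegralElem.add _)
      (RingHom.isIntegralElem_zero _) ?_
    intro i _
    rw [map_mul, ← valF_evF_jFull N]
    exact RingHom.IsIntegralElem.mul _ (RingHom.isIntegralElem_map _) (H.integral i)
  exact (mem_chartAlg_iff N ℓ).mpr ((isIntegral_adjoin_singleton_iff (jFull N) _).mpr h₂)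

/-! ### The chart `j ≠ ∞` -/

variable {ℓ A N} in
/-- The generators `j̄(q^d)` of `Ft` are quotients of reductions of chart-fin-integral series. -/
theorem exists_frac_red_fin_gen (hℓN : ¬ ℓ ∣ N) (hA : A.LiesOverPrime ℓ) (d : ℕ) [NeZero d]
    (hd : d ∣ N) :
    ∃ y₁ y₂ : LaurentSeries A, IsIntFin ℓ A N y₁ ∧ IsIntFin ℓ A N y₂ ∧
      coeffMap (IsLocalRing.residue A) y₂ ≠ 0 ∧
      qExpand (IsLocalRing.ResidueField A) d (jqModC (IsLocalRing.ResidueField A)) *
        coeffMap (IsLocalRing.residue A) y₂ = coeffMap (IsLocalRing.residue A) y₁ := by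
  have hz : valF N (⟨qExpand ℚ d jq, jqd_mem_full N hd⟩ : FF) =
      iota ℓ (qExpand Rl d (jqModC Rl)) := by
    rw [valF_apply]
    unfold iota
    rw [IntY1829.coeffMap_qExpand, IntY1829.coeffMap_jqModC]
    rfl
  obtain ⟨d₀, hd₀, hmem⟩ := exists_primitive_denominator hℓN _ _ hz
  refine ⟨coeffMap (zlToA hA) (aeval (jqModC Rl) d₀ * qExpand Rl d (jqModC Rl)), polyA hA d₀,
    ?_, isIntFin_aeval hA d₀, coeffMap_residue_polyA_ne_zero hA hd₀, ?_⟩
  · refine isChartInt_of_iota hA _ _ _ hmem ?_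
    rw [map_mul, valF_evF_jFull, hz, map_mul]
  · unfold polyA
    rw [map_mul, map_mul, coeffMap_coeffMap (IsLocalRing.residue A) (zlToA hA)
      (qExpand Rl d (jqModC Rl)), IntY1829.coeffMap_qExpand, IntY1829.coeffMap_jqModC]
    exact mul_comm _ _

variable {ℓ A N} in
/-- **RED (E1), chart fin** (statement of `TInt.lean`): `Ft` is the field of fractions of the reduced
chart `j ≠ ∞`. -/
theorem exists_frac_red_fin (hℓN : ¬ ℓ ∣ N) (hA : A.LiesOverPrime ℓ) (f : Ft A N) :
    ∃ y₁ y₂ : LaurentSeries A, IsIntFin ℓ A N y₁ ∧ IsIntFin ℓ A N y₂ ∧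
      coeffMap (IsLocalRing.residue A) y₂ ≠ 0 ∧
      (f : LaurentSeries (IsLocalRing.ResidueField A)) * coeffMap (IsLocalRing.residue A) y₂ =
        coeffMap (IsLocalRing.residue A) y₁ := by
  have hconst : ∀ c : IsLocalRing.ResidueField A, ∃ a b : chartSubring ℓ A N {jFull N},
      redSub ℓ A N {jFull N} b ≠ 0 ∧
      algebraMap (IsLocalRing.ResidueField A) (LaurentSeries (IsLocalRing.ResidueField A)) c *
        redSub ℓ A N {jFull N} b = redSub ℓ A N {jFull N} a := by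
    intro c
    obtain ⟨c₀, rfl⟩ := IsLocalRing.residue_surjective c
    refine ⟨⟨HahnSeries.C c₀, isChartInt_C ℓ A N _ c₀⟩, 1, ?_, ?_⟩
    · rw [map_one]; exact one_ne_zero
    · rw [map_one, mul_one, redSub_apply, algebraMap_laurentSeries_eq_single]
      show _ = coeffMap (IsLocalRing.residue A) (HahnSeries.C c₀)
      rw [HahnSeries.C_apply, coeffMap_single]
  have hgen : ∀ s ∈ divisorExpansionsC (IsLocalRing.ResidueField A) N,
      ∃ a b : chartSubring ℓ A N {jFull N}, redSub ℓ A N {jFull N} b ≠ 0 ∧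
        s * redSub ℓ A N {jFull N} b = redSub ℓ A N {jFull N} a := by
    rintro s ⟨d, hd0, hd, rfl⟩
    have := hd0
    obtain ⟨y₁, y₂, h₁, h₂, h0, e⟩ := exists_frac_red_fin_gen hℓN hA d hd
    exact ⟨⟨y₁, h₁⟩, ⟨y₂, h₂⟩, h0, e⟩
  obtain ⟨a, b, hb, e⟩ := e1_frac_closure (redSub ℓ A N {jFull N})
    (divisorExpansionsC (IsLocalRing.ResidueField A) N) hconst hgen
    (f : LaurentSeries (IsLocalRing.ResidueField A)) f.2
  exact ⟨a, b, a.2, b.2, hb, e⟩

/-! ### The chart `j ≠ 0` -/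

/-- A chart-fin element of the span becomes chart-inf after multiplication by a power of `1/j`. -/
theorem exists_pow_jinv_mul_mem_chartSpan (x : LaurentSeries Qb)
    (hx : x ∈ chartSpan ℓ A N {jFull N}) :
    ∃ n : ℕ, ∀ m : ℕ, n ≤ m →
      (coeffEmb Qb jq⁻¹) ^ m * x ∈ chartSpan ℓ A N {(jFull N)⁻¹} := by
  have hj0 := jFull_ne_zero N
  have hjinv : (coeffEmb Qb jq⁻¹ : LaurentSeries Qb) ∈ chartSpan ℓ A N {(jFull N)⁻¹} :=
    gen_mem_chartSpan ℓ A N _ (jInvChartInf N ℓ)
  induction hx using Submodule.span_induction with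
  | mem x hx =>
    obtain ⟨x₀, rfl⟩ := hx
    have hmid : (x₀ : FF) ∈ chartAlg N ℓ (insert ((jFull N)⁻¹)⁻¹ {(jFull N)⁻¹}) := by
      rw [inv_inv]
      exact chartAlg_mono N ℓ (sFin_subset N) x₀.2
    obtain ⟨n, hn⟩ := exists_pow_mul_mem_chartAlg (Set.mem_singleton _) (inv_ne_zero hj0) hmid
    refine ⟨n, fun m hm => ?_⟩
    obtain ⟨k, rfl⟩ := Nat.exists_eq_add_of_le hm
    have h1 : (coeffEmb Qb jq⁻¹) ^ (n + k) *
        coeffEmb Qb ((x₀ : FF) : LaurentSeries ℚ) =
        (coeffEmb Qb jq⁻¹) ^ k *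
          coeffEmb Qb (((⟨(jFull N)⁻¹ ^ n * x₀, hn⟩ : chartAlgInf N ℓ) : FF) :
            LaurentSeries ℚ) := by
      have h2 : (((⟨(jFull N)⁻¹ ^ n * x₀, hn⟩ : chartAlgInf N ℓ) : FF) : LaurentSeries ℚ) =
          jq⁻¹ ^ n * ((x₀ : FF) : LaurentSeries ℚ) := rfl
      rw [h2, map_mul, map_pow, pow_add]
      ring
    rw [h1]
    exact mul_mem_chartSpan ℓ A N _
      (by
        have h3 : ∀ k : ℕ, (coeffEmb Qb jq⁻¹) ^ k ∈ chartSpan ℓ A N {(jFull N)⁻¹} := by
          intro k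
          induction k with
          | zero => rw [pow_zero]; exact one_mem_chartSpan ℓ A N _
          | succ k ih => rw [pow_succ]; exact mul_mem_chartSpan ℓ A N _ ih hjinv
        exact h3 k)
      (gen_mem_chartSpan ℓ A N _ _)
  | zero => exact ⟨0, fun m _ => by rw [mul_zero]; exact zero_mem _⟩
  | add x y _ _ hx hy =>
    obtain ⟨n₁, h₁⟩ := hx
    obtain ⟨n₂, h₂⟩ := hy
    refine ⟨max n₁ n₂, fun m hm => ?_⟩
    rw [mul_add]
    exact add_mem (h₁ m (le_trans (le_max_left _ _) hm)) (h₂ m (le_trans (le_max_right _ _) hm))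
  | smul a x _ hx =>
    obtain ⟨n, h⟩ := hx
    refine ⟨n, fun m hm => ?_⟩
    rw [smul_eq_C_mul, mul_left_comm, ← smul_eq_C_mul]
    exact Submodule.smul_mem _ a (h m hm)

variable {ℓ A N} in
/-- A chart-fin-integral series becomes chart-inf-integral after multiplication by a power of
`1/j`. -/
theorem exists_pow_jinv_mul {y : LaurentSeries A} (hy : IsIntFin ℓ A N y) :
    ∃ n : ℕ, ∀ m : ℕ, n ≤ m → IsIntInf ℓ A N (jinvA A ^ m * y) := by
  obtain ⟨n, hn⟩ := exists_pow_jinv_mul_mem_chartSpan ℓ A N _ hy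
  refine ⟨n, fun m hm => ?_⟩
  show coeffMap A.subtype (jinvA A ^ m * y) ∈ chartSpan ℓ A N {(jFull N)⁻¹}
  rw [map_mul, map_pow, coeffMap_subtype_jinvA]
  exact hn m hm

variable {ℓ A N} in
/-- **RED (E1), chart inf** (statement of `TInt.lean`): `Ft` is the field of fractions of the reduced
chart `j ≠ 0`. -/
theorem exists_frac_red_inf (hℓN : ¬ ℓ ∣ N) (hA : A.LiesOverPrime ℓ) (f : Ft A N) :
    ∃ y₁ y₂ : LaurentSeries A, IsIntInf ℓ A N y₁ ∧ IsIntInf ℓ A N y₂ ∧
      coeffMap (IsLocalRing.residue A) y₂ ≠ 0 ∧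
      (f : LaurentSeries (IsLocalRing.ResidueField A)) * coeffMap (IsLocalRing.residue A) y₂ =
        coeffMap (IsLocalRing.residue A) y₁ := by
  obtain ⟨y₁, y₂, h₁, h₂, h0, e⟩ := exists_frac_red_fin hℓN hA f
  obtain ⟨n₁, hn₁⟩ := exists_pow_jinv_mul h₁
  obtain ⟨n₂, hn₂⟩ := exists_pow_jinv_mul h₂
  have hu : coeffMap (IsLocalRing.residue A) (jinvA A) ≠ 0 := by
    intro h
    have h1 := congrArg (coeffMap (IsLocalRing.residue A)) (jinvA_mul_j A)
    rw [map_mul, h, zero_mul, map_one] at h1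
    exact zero_ne_one h1
  refine ⟨jinvA A ^ (max n₁ n₂) * y₁, jinvA A ^ (max n₁ n₂) * y₂,
    hn₁ _ (le_max_left _ _), hn₂ _ (le_max_right _ _), ?_, ?_⟩
  · rw [map_mul, map_pow]
    exact mul_ne_zero (pow_ne_zero _ hu) h0
  · rw [map_mul, map_mul, ← e]
    ring

end Fermat.Agent.S18.RED9269
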