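import Fermat.Agent.S18.RED9269.R1
import Fermat.Agent.S28.AN.Assemble
import Fermat.Agent.S28.Span
import Fermat.Agent.S28.IsIntegralY
import Fermat.Agent.S28.RedIndep
import Fermat.Agent.S28.QRed.Core

/-!
# S18, package RED, R4 (helper9269): `Fb` is the field of fractions of the chart `j ≠ ∞`

`exists_isIntFin_frac` (statement of the frozen `Fermat/Agent/S18/Red.lean`): every `f ∈ Fb N` is a
quotient `y₁ / y₂` of two series over `A` that are integral for the chart `j ≠ ∞`.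

Ingredients:
* `zlToA` : `ℤ_(ℓ) → A` when `A` lies over `ℓ`;
* `exists_clear_denominator` (from the landed S28 interface): for `z ∈ ℚ(X₀(N))` there is
  `p ∈ ℤ_(ℓ)[X]`, `p ≠ 0`, such that `p(j) z` lies in the chart and has a `ℤ_(ℓ)`-integral `q`-expansion;
* `Fb N` is the field of fractions of the `ℚ̄`-span of `ℚ(X₀(N))`.
-/

set_option autoImplicit false
set_option linter.unusedSectionVars false

noncomputable section

namespace Fermat.Agent.S18.RED9269

open ModularCurve AlgebraicCurve ModularCurve.IgusaScheme IntermediateField Polynomial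
open Fermat.Agent.S28 Fermat.Agent.S28.QRed

variable (ℓ : ℕ) [Fact ℓ.Prime] (A : ValuationSubring (AlgebraicClosure ℚ)) (N : ℕ) [NeZero N]

set_option quotPrecheck false in
local notation "Rl" => ↥(GaloisRep.ratLocalizedAt ℓ)

set_option quotPrecheck false in
local notation "FF" => ↥(modularFunctionFieldFull N)

local notation "Qb" => AlgebraicClosure ℚ

/-! ### `ℤ_(ℓ) ⊆ A` -/

variable {ℓ A} in
theorem natCast_isUnit_of_coprime (hA : A.LiesOverPrime ℓ) {d : ℕ} (hd : d.Coprime ℓ) :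
    A.valuation (d : Qb) = 1 := by
  have hle : ∀ m : ℤ, A.valuation (m : Qb) ≤ 1 := fun m =>
    (A.valuation_le_one_iff _).mpr (intCast_mem A m)
  have hd1 : A.valuation (d : Qb) ≤ 1 := by
    have := hle (d : ℤ)
    rwa [Int.cast_natCast] at this
  by_contra hne
  have hlt : A.valuation (d : Qb) < 1 := lt_of_le_of_ne hd1 hne
  have hl : A.valuation (ℓ : Qb) < 1 := A.mem_nonunits_iff.mp hA
  have hbez : ((d : ℤ) * Nat.gcdA d ℓ + (ℓ : ℤ) * Nat.gcdB d ℓ : ℤ) = 1 := by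
    have h := Nat.gcd_eq_gcd_ab d ℓ
    rw [hd] at h
    exact_mod_cast h.symm
  have h1 : A.valuation ((d : Qb) * ((Nat.gcdA d ℓ : ℤ) : Qb) + (ℓ : Qb) * ((Nat.gcdB d ℓ : ℤ) : Qb)) = 1 := by
    have : (d : Qb) * ((Nat.gcdA d ℓ : ℤ) : Qb) + (ℓ : Qb) * ((Nat.gcdB d ℓ : ℤ) : Qb) = 1 := by
      exact_mod_cast congrArg (Int.cast : ℤ → Qb) hbez
    rw [this, map_one]
  have h2 : A.valuation ((d : Qb) * ((Nat.gcdA d ℓ : ℤ) : Qb) + (ℓ : Qb) * ((Nat.gcdB d ℓ : ℤ) : Qb)) < 1 := by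
    refine lt_of_le_of_lt (A.valuation.map_add _ _) (max_lt ?_ ?_)
    · rw [map_mul]
      exact lt_of_le_of_lt (mul_le_of_le_one_right' (hle _)) hlt
    · rw [map_mul]
      exact lt_of_le_of_lt (mul_le_of_le_one_right' (hle _)) hl
  exact absurd h1 h2.ne

variable {ℓ A} in
theorem algebraMap_mem_of_mem_ratLoc (hA : A.LiesOverPrime ℓ) (x : Rl) :
    algebraMap ℚ Qb (x : ℚ) ∈ A := by
  have hx : (x : ℚ).den.Coprime ℓ := x.2
  have h1 := natCast_isUnit_of_coprime hA hx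
  have hden : ((x : ℚ).den : Qb) ≠ 0 := by
    exact_mod_cast (x : ℚ).den_ne_zero
  have h2 : algebraMap ℚ Qb (x : ℚ) = ((x : ℚ).num : Qb) * ((x : ℚ).den : Qb)⁻¹ := by
    conv_lhs => rw [← Rat.num_div_den (x : ℚ)]
    rw [map_div₀, div_eq_mul_inv]
    simp
  rw [h2, ← A.valuation_le_one_iff, map_mul, map_inv₀, h1, inv_one, mul_one]
  exact (A.valuation_le_one_iff _).mpr (intCast_mem A _)

variable {ℓ A} in
/-- The inclusion `ℤ_(ℓ) → A` for a valuation ring `A` of `ℚ̄` over `ℓ`. -/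
def zlToA (hA : A.LiesOverPrime ℓ) : Rl →+* A :=
  ((algebraMap ℚ Qb).comp (GaloisRep.ratLocalizedAt ℓ).subtype).codRestrict A.toSubring
    (fun x => algebraMap_mem_of_mem_ratLoc hA x)

variable {ℓ A} in
theorem coe_zlToA (hA : A.LiesOverPrime ℓ) (x : Rl) :
    ((zlToA hA x : A) : Qb) = algebraMap ℚ Qb (x : ℚ) := rfl

variable {ℓ A} in
theorem coeffMap_subtype_zlToA (hA : A.LiesOverPrime ℓ) (g : LaurentSeries Rl) :
    coeffMap A.subtype (coeffMap (zlToA hA) g) = coeffEmb Qb (iota ℓ g) := by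
  ext n
  rfl

variable {ℓ A} in
theorem coeffMap_zlToA_injective (hA : A.LiesOverPrime ℓ) :
    Function.Injective (coeffMap (zlToA hA)) := by
  intro x y h
  ext n
  have h1 := congrArg (fun z => ((z.coeff n : A) : Qb)) h
  simp only [coeffMap_coeff, coe_zlToA] at h1
  have h2 := (algebraMap ℚ Qb).injective h1
  exact_mod_cast h2

/-! ### Series over `ℤ_(ℓ)` whose image is a chart element -/

variable {ℓ A N} in
/-- If `g ∈ ℤ_(ℓ)((q))` is the `q`-expansion of an element of the chart `S`, its image over `A` is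
chart-integral. -/
theorem isChartInt_of_iota (hA : A.LiesOverPrime ℓ) (S : Set FF) (g : LaurentSeries Rl)
    (w : FF) (hw : w ∈ chartAlg N ℓ S) (hg : valF N w = iota ℓ g) :
    IsChartInt ℓ A N S (coeffMap (zlToA hA) g) := by
  unfold IsChartInt
  rw [coeffMap_subtype_zlToA, ← hg]
  exact gen_mem_chartSpan ℓ A N S ⟨w, hw⟩

variable {ℓ A N} in
/-- Polynomials in `j` over `ℤ_(ℓ)` are integral for the chart `j ≠ ∞`. -/
theorem isIntFin_aeval (hA : A.LiesOverPrime ℓ) (p : Rl[X]) :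
    IsIntFin ℓ A N (coeffMap (zlToA hA) (aeval (jqModC Rl) p)) := by
  refine isChartInt_of_iota hA _ _ (evF N ℓ (jFull N) p) ?_ (valF_evF_jFull N ℓ p)
  refine adjoin_le_chartAlg N ℓ _ ?_
  show (aeval (jFull N)) p ∈ Algebra.adjoin Rl {jFull N}
  rw [Algebra.adjoin_singleton_eq_range_aeval]
  exact ⟨p, rfl⟩

/-! ### Clearing denominators (from the landed S28 interface) -/

variable {ℓ N} in
/-- For every `z ∈ ℚ(X₀(N))` there is a nonzero `p ∈ ℤ_(ℓ)[X]` such that `p(j) z` lies in the chart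
`j ≠ ∞` and has a `ℤ_(ℓ)`-integral `q`-expansion. -/
theorem exists_clear_denominator (hℓN : ¬ ℓ ∣ N) (z : FF) :
    ∃ (p : Rl[X]) (g : LaurentSeries Rl), p ≠ 0 ∧ evF N ℓ (jFull N) p * z ∈ chartAlgFin N ℓ ∧
      valF N (evF N ℓ (jFull N) p * z) = iota ℓ g := by
  obtain ⟨D⟩ := exists_ANData N
  have H : Interface N ℓ (Fintype.card D.ι)
      (fun i => (yUnit Rl N : LaurentSeries Rl) ^ (i : ℕ)) :=
    interface_of_yUnit N ℓ _ (isIntegral_yUnit N ℓ hℓN D)
      (linearIndependent_red_yUnit N ℓ hℓN D) (span_of_ANData N D)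
  obtain ⟨b, a, hb, hrel⟩ := H.span (valF N z) z.2
  obtain ⟨m, b', a', hm, hb', ha'⟩ := exists_common_int_mul ℓ b a
  have hmQ : (m : ℚ) ≠ 0 := fun h => hm (Subtype.ext h)
  have hb'0 : b' ≠ 0 := by
    intro h
    rw [h, Polynomial.map_zero] at hb'
    exact (mul_ne_zero (C_ne_zero.mpr hmQ) hb) hb'.symm
  have hrel' : valF N z * iota ℓ (aeval (jqModC Rl) b') =
      iota ℓ (∑ i, aeval (jqModC Rl) (a' i) * (yUnit Rl N : LaurentSeries Rl) ^ (i : ℕ)) := by
    rw [iota_aeval, hb', map_sum]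
    simp only [map_mul, iota_aeval, ha', aeval_C]
    rw [mul_left_comm, hrel, Finset.mul_sum]
    exact Finset.sum_congr rfl fun i _ => by ring
  have hval : valF N (evF N ℓ (jFull N) b' * z) =
      iota ℓ (∑ i, aeval (jqModC Rl) (a' i) * (yUnit Rl N : LaurentSeries Rl) ^ (i : ℕ)) := by
    rw [map_mul, valF_evF_jFull, mul_comm, hrel']
  refine ⟨b', _, hb'0, ?_, hval⟩
  have h₂ : (evF N ℓ (jFull N)).IsIntegralElem (evF N ℓ (jFull N) b' * z) := by
    apply isIntegralElem_of_valF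
    rw [hval, map_sum]
    refine Finset.sum_induction _ _ (fun _ _ => RingHom.IsIntegralElem.add _)
      (RingHom.isIntegralElem_zero _) ?_
    intro i _
    rw [map_mul, ← valF_evF_jFull N]
    exact RingHom.IsIntegralElem.mul _ (RingHom.isIntegralElem_map _) (H.integral i)
  exact (mem_chartAlg_iff N ℓ).mpr ((isIntegral_adjoin_singleton_iff (jFull N) _).mpr h₂)

/-! ### `Fb` as a field of fractions -/

variable {ℓ A} in
/-- `p(j)` as a series over `A`. -/
def polyA (hA : A.LiesOverPrime ℓ) (p : Rl[X]) : LaurentSeries A :=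
  coeffMap (zlToA hA) (aeval (jqModC Rl) p)

variable {ℓ A} in
theorem polyA_mul (hA : A.LiesOverPrime ℓ) (p p' : Rl[X]) :
    polyA hA (p * p') = polyA hA p * polyA hA p' := by
  unfold polyA
  rw [map_mul, map_mul]

variable {ℓ A} in
theorem polyA_one (hA : A.LiesOverPrime ℓ) : polyA hA (1 : Rl[X]) = 1 := by
  unfold polyA
  rw [map_one, map_one]

variable {ℓ A} in
theorem coeffMap_polyA_ne_zero (hA : A.LiesOverPrime ℓ) {p : Rl[X]} (hp : p ≠ 0) :
    coeffMap A.subtype (polyA hA p) ≠ 0 := by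
  unfold polyA
  rw [coeffMap_subtype_zlToA, ← valF_evF_jFull 1 ℓ p]
  intro h
  have h1 : valF 1 (evF 1 ℓ (jFull 1) p) = 0 :=
    (coeffEmb Qb).injective (by rw [h, map_zero])
  have h2 : evF 1 ℓ (jFull 1) p = 0 := valF_injective 1 (by rw [h1, map_zero])
  exact hp (evF_jFull_injective 1 ℓ (by rw [h2, map_zero]))

variable {ℓ A N} in
theorem exists_scale_of_mem_adjoin (hℓN : ¬ ℓ ∣ N) (hA : A.LiesOverPrime ℓ)
    (w : LaurentSeries Qb) (hw : w ∈ Algebra.adjoin Qb (⇑(coeffEmb Qb) ''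
      ((modularFunctionFieldFull N : IntermediateField ℚ (LaurentSeries ℚ)) :
        Set (LaurentSeries ℚ)))) :
    ∃ (p : Rl[X]) (c : A) (y : LaurentSeries A), p ≠ 0 ∧ c ≠ 0 ∧ IsIntFin ℓ A N y ∧
      coeffMap A.subtype y =
        HahnSeries.C (c : Qb) * (coeffMap A.subtype (polyA hA p) * w) := by
  induction hw using Algebra.adjoin_induction with
  | mem w hw =>
    obtain ⟨x, hx, rfl⟩ := hw
    obtain ⟨p, g, hp, hmem, hval⟩ := exists_clear_denominator hℓN (⟨x, hx⟩ : FF)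
    refine ⟨p, 1, coeffMap (zlToA hA) g, hp, one_ne_zero, isChartInt_of_iota hA _ g _ hmem hval, ?_⟩
    rw [coeffMap_subtype_zlToA, ← hval, map_mul, valF_evF_jFull, map_mul, OneMemClass.coe_one,
      map_one, one_mul]
    unfold polyA
    rw [coeffMap_subtype_zlToA]
    rfl
  | algebraMap a =>
    have hal : algebraMap Qb (LaurentSeries Qb) a = HahnSeries.C a := by
      rw [algebraMap_laurentSeries_eq_single]
      rfl
    rw [hal]
    by_cases ha0 : a = 0
    · refine ⟨1, 1, 0, one_ne_zero, one_ne_zero, isChartInt_zero ℓ A N _, ?_⟩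
      rw [ha0, map_zero (coeffMap A.subtype), map_zero HahnSeries.C, mul_zero, mul_zero]
    by_cases haA : a ∈ A
    · refine ⟨1, 1, HahnSeries.C (⟨a, haA⟩ : A), one_ne_zero, one_ne_zero,
        isChartInt_C ℓ A N _ _, ?_⟩
      rw [coeffMap_subtype_C, smul_eq_C_mul, polyA_one, map_one, OneMemClass.coe_one, map_one,
        one_mul, one_mul, mul_one]
    · have hinv : a⁻¹ ∈ A := (A.mem_or_inv_mem a).resolve_left haA
      refine ⟨1, ⟨a⁻¹, hinv⟩, 1, one_ne_zero,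
        (fun h0 => ha0 (inv_eq_zero.mp (congrArg Subtype.val h0))), isChartInt_one ℓ A N _, ?_⟩
      rw [polyA_one, map_one, one_mul, ← map_mul, inv_mul_cancel₀ ha0, map_one]
  | add w₁ w₂ _ _ h₁ h₂ =>
    obtain ⟨p₁, c₁, y₁, hp₁, hc₁, hy₁, e₁⟩ := h₁
    obtain ⟨p₂, c₂, y₂, hp₂, hc₂, hy₂, e₂⟩ := h₂
    refine ⟨p₁ * p₂, c₁ * c₂,
      HahnSeries.C c₂ * polyA hA p₂ * y₁ + HahnSeries.C c₁ * polyA hA p₁ * y₂,
      mul_ne_zero hp₁ hp₂, mul_ne_zero hc₁ hc₂, ?_, ?_⟩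
    · exact isChartInt_add ℓ A N _
        (isChartInt_mul ℓ A N _ (isChartInt_mul ℓ A N _ (isChartInt_C ℓ A N _ c₂)
          (isIntFin_aeval hA p₂)) hy₁)
        (isChartInt_mul ℓ A N _ (isChartInt_mul ℓ A N _ (isChartInt_C ℓ A N _ c₁)
          (isIntFin_aeval hA p₁)) hy₂)
    · rw [map_add, map_mul, map_mul, map_mul, map_mul, e₁, e₂, polyA_mul, map_mul,
        coeffMap_subtype_C, coeffMap_subtype_C, smul_eq_C_mul, smul_eq_C_mul,
        MulMemClass.coe_mul, map_mul]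
      ring
  | mul w₁ w₂ _ _ h₁ h₂ =>
    obtain ⟨p₁, c₁, y₁, hp₁, hc₁, hy₁, e₁⟩ := h₁
    obtain ⟨p₂, c₂, y₂, hp₂, hc₂, hy₂, e₂⟩ := h₂
    refine ⟨p₁ * p₂, c₁ * c₂, y₁ * y₂, mul_ne_zero hp₁ hp₂, mul_ne_zero hc₁ hc₂,
      isChartInt_mul ℓ A N _ hy₁ hy₂, ?_⟩
    rw [map_mul, e₁, e₂, polyA_mul, map_mul, MulMemClass.coe_mul, map_mul]
    ring

variable {ℓ A N} in
/-- **R4** (statement of the frozen `Red.lean`): `Fb N` is the field of fractions of the chart
`j ≠ ∞`. -/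
theorem exists_isIntFin_frac (hℓN : ¬ ℓ ∣ N) (hA : A.LiesOverPrime ℓ) (f : Fb N) :
    ∃ y₁ y₂ : LaurentSeries A, IsIntFin ℓ A N y₁ ∧ IsIntFin ℓ A N y₂ ∧ y₂ ≠ 0 ∧
      (f : LaurentSeries (AlgebraicClosure ℚ)) * coeffMap A.subtype y₂ = coeffMap A.subtype y₁ := by
  have h : (f : LaurentSeries Qb) ∈ IntermediateField.adjoin Qb (⇑(coeffEmb Qb) ''
      ((modularFunctionFieldFull N : IntermediateField ℚ (LaurentSeries ℚ)) :
        Set (LaurentSeries ℚ))) := f.2
  rw [IntermediateField.mem_adjoin_iff_div] at h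
  obtain ⟨r, hr, s, hs, hf⟩ := h
  by_cases hs0 : s = 0
  · refine ⟨0, 1, isChartInt_zero ℓ A N _, isChartInt_one ℓ A N _, one_ne_zero, ?_⟩
    rw [hf, hs0, div_zero, zero_mul, map_zero]
  · obtain ⟨p₁, c₁, y₁, hp₁, hc₁, hy₁, e₁⟩ := exists_scale_of_mem_adjoin hℓN hA r hr
    obtain ⟨p₂, c₂, y₂, hp₂, hc₂, hy₂, e₂⟩ := exists_scale_of_mem_adjoin hℓN hA s hs
    have hC : ∀ c : A, c ≠ 0 → HahnSeries.C (c : Qb) ≠ (0 : LaurentSeries Qb) := by
      intro c hc h0
      have h1 : (c : Qb) = 0 := HahnSeries.C_injective (by rw [h0, map_zero])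
      exact hc (Subtype.ext h1)
    refine ⟨HahnSeries.C c₂ * polyA hA p₂ * y₁, HahnSeries.C c₁ * polyA hA p₁ * y₂,
      isChartInt_mul ℓ A N _ (isChartInt_mul ℓ A N _ (isChartInt_C ℓ A N _ c₂)
          (isIntFin_aeval hA p₂)) hy₁,
      isChartInt_mul ℓ A N _ (isChartInt_mul ℓ A N _ (isChartInt_C ℓ A N _ c₁)
          (isIntFin_aeval hA p₁)) hy₂, ?_, ?_⟩
    · intro h0
      have h1 := congrArg (coeffMap A.subtype) h0
      rw [map_mul, map_mul, e₂, map_zero, coeffMap_subtype_C, smul_eq_C_mul, mul_one] at h1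
      have h2 : HahnSeries.C (c₁ : Qb) * coeffMap A.subtype (polyA hA p₁) *
          (HahnSeries.C (c₂ : Qb) * (coeffMap A.subtype (polyA hA p₂) * s)) ≠ 0 :=
        mul_ne_zero (mul_ne_zero (hC c₁ hc₁) (coeffMap_polyA_ne_zero hA hp₁))
          (mul_ne_zero (hC c₂ hc₂) (mul_ne_zero (coeffMap_polyA_ne_zero hA hp₂) hs0))
      exact h2 h1
    · rw [map_mul, map_mul, map_mul, map_mul, e₁, e₂, coeffMap_subtype_C, coeffMap_subtype_C,
        smul_eq_C_mul, smul_eq_C_mul, mul_one, mul_one, hf]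
      field_simp

end Fermat.Agent.S18.RED9269
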