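import Fermat.Agent.S18.DefsMod

/-!
# S18, package RED, R1 (helper9269): ring structure of the chart-integral series

Same statements as the frozen `Fermat/Agent/S18/Red.lean` (section R1), in the namespace
`Fermat.Agent.S18.RED9269`: the `A`-span of a chart algebra inside `ℚ̄((q))` is a subring, contains
the constants of `A`, is monotone in the chart, contains `j` (chart `j ≠ ∞`) and `1/j` (chart `j ≠ 0`).
-/

set_option autoImplicit false
set_option linter.unusedSectionVars false

noncomputable section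

namespace Fermat.Agent.S18.RED9269

open ModularCurve AlgebraicCurve ModularCurve.IgusaScheme IntermediateField

variable (ℓ : ℕ) [Fact ℓ.Prime] (A : ValuationSubring (AlgebraicClosure ℚ)) (N : ℕ) [NeZero N]

/-! ### Scalars of `A` acting on `ℚ̄((q))` -/

omit [Fact ℓ.Prime] in
theorem smul_eq_C_mul (a : A) (x : LaurentSeries (AlgebraicClosure ℚ)) :
    a • x = HahnSeries.C (a : AlgebraicClosure ℚ) * x := by
  ext n
  rw [HahnSeries.C_mul_eq_smul]
  rfl

omit [Fact ℓ.Prime] in
theorem coeffMap_subtype_C_mul (a : A) (x : LaurentSeries A) :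
    coeffMap A.subtype (HahnSeries.C a * x) = a • coeffMap A.subtype x := by
  ext n
  rw [HahnSeries.C_mul_eq_smul]
  rfl

omit [Fact ℓ.Prime] in
theorem coeffMap_subtype_C (a : A) :
    coeffMap A.subtype (HahnSeries.C a) = a • (1 : LaurentSeries (AlgebraicClosure ℚ)) := by
  have h := coeffMap_subtype_C_mul A a 1
  rwa [mul_one, map_one] at h

omit [Fact ℓ.Prime] in
theorem coeffMap_subtype_injective : Function.Injective (coeffMap A.subtype) := by
  intro x y h
  ext n
  have h1 := congrArg (fun z => z.coeff n) h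
  exact h1

/-! ### The chart span is a subring -/

/-- The generators of the chart span. -/
theorem gen_mem_chartSpan (S : Set ↥(modularFunctionFieldFull N)) (x : chartAlg N ℓ S) :
    coeffEmb (AlgebraicClosure ℚ) ((x : ↥(modularFunctionFieldFull N)) : LaurentSeries ℚ) ∈
      chartSpan ℓ A N S :=
  Submodule.subset_span ⟨x, rfl⟩

theorem one_mem_chartSpan (S : Set ↥(modularFunctionFieldFull N)) :
    (1 : LaurentSeries (AlgebraicClosure ℚ)) ∈ chartSpan ℓ A N S := by
  have h := gen_mem_chartSpan ℓ A N S 1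
  simpa using h

theorem mul_mem_chartSpan (S : Set ↥(modularFunctionFieldFull N))
    {x y : LaurentSeries (AlgebraicClosure ℚ)} (hx : x ∈ chartSpan ℓ A N S)
    (hy : y ∈ chartSpan ℓ A N S) : x * y ∈ chartSpan ℓ A N S := by
  induction hx using Submodule.span_induction with
  | mem x hx =>
    obtain ⟨x₀, rfl⟩ := hx
    induction hy using Submodule.span_induction with
    | mem y hy =>
      obtain ⟨y₀, rfl⟩ := hy
      have h := gen_mem_chartSpan ℓ A N S (x₀ * y₀)
      simpa [map_mul] using h
    | zero => rw [mul_zero]; exact zero_mem _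
    | add y z _ _ hy hz => rw [mul_add]; exact add_mem hy hz
    | smul a y _ hy =>
      rw [smul_eq_C_mul, mul_left_comm, ← smul_eq_C_mul]
      exact Submodule.smul_mem _ a hy
  | zero => rw [zero_mul]; exact zero_mem _
  | add x z _ _ hx hz => rw [add_mul]; exact add_mem hx hz
  | smul a x _ hx =>
    rw [smul_eq_C_mul, mul_assoc, ← smul_eq_C_mul]
    exact Submodule.smul_mem _ a hx

theorem chartSpan_mono {S S' : Set ↥(modularFunctionFieldFull N)} (h : S ⊆ S') :
    chartSpan ℓ A N S ≤ chartSpan ℓ A N S' := by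
  apply Submodule.span_le.mpr
  rintro _ ⟨x, rfl⟩
  exact gen_mem_chartSpan ℓ A N S' ⟨x, chartAlg_mono N ℓ h x.2⟩

/-! ### R1 -/

theorem isChartInt_add (S : Set ↥(modularFunctionFieldFull N)) {y z : LaurentSeries A}
    (hy : IsChartInt ℓ A N S y) (hz : IsChartInt ℓ A N S z) : IsChartInt ℓ A N S (y + z) := by
  unfold IsChartInt at *
  rw [map_add]
  exact add_mem hy hz

theorem isChartInt_mul (S : Set ↥(modularFunctionFieldFull N)) {y z : LaurentSeries A}
    (hy : IsChartInt ℓ A N S y) (hz : IsChartInt ℓ A N S z) : IsChartInt ℓ A N S (y * z) := by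
  unfold IsChartInt at *
  rw [map_mul]
  exact mul_mem_chartSpan ℓ A N S hy hz

theorem isChartInt_neg (S : Set ↥(modularFunctionFieldFull N)) {y : LaurentSeries A}
    (hy : IsChartInt ℓ A N S y) : IsChartInt ℓ A N S (-y) := by
  unfold IsChartInt at *
  rw [map_neg]
  exact neg_mem hy

theorem isChartInt_C (S : Set ↥(modularFunctionFieldFull N)) (a : A) :
    IsChartInt ℓ A N S (HahnSeries.C a) := by
  unfold IsChartInt
  rw [coeffMap_subtype_C]
  exact Submodule.smul_mem _ a (one_mem_chartSpan ℓ A N S)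

theorem isChartInt_zero (S : Set ↥(modularFunctionFieldFull N)) :
    IsChartInt ℓ A N S (0 : LaurentSeries A) := by
  unfold IsChartInt
  rw [map_zero]
  exact zero_mem _

theorem isChartInt_one (S : Set ↥(modularFunctionFieldFull N)) :
    IsChartInt ℓ A N S (1 : LaurentSeries A) := by
  unfold IsChartInt
  rw [map_one]
  exact one_mem_chartSpan ℓ A N S

theorem isChartInt_pow (S : Set ↥(modularFunctionFieldFull N)) {y : LaurentSeries A}
    (hy : IsChartInt ℓ A N S y) (n : ℕ) : IsChartInt ℓ A N S (y ^ n) := by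
  induction n with
  | zero => rw [pow_zero]; exact isChartInt_one ℓ A N S
  | succ n ih => rw [pow_succ]; exact isChartInt_mul ℓ A N S ih hy

theorem isChartInt_sum (S : Set ↥(modularFunctionFieldFull N)) {ι : Type*} (s : Finset ι)
    (y : ι → LaurentSeries A) (hy : ∀ i ∈ s, IsChartInt ℓ A N S (y i)) :
    IsChartInt ℓ A N S (∑ i ∈ s, y i) := by
  unfold IsChartInt at *
  rw [map_sum]
  exact Submodule.sum_mem _ hy

theorem isChartInt_mono {S S' : Set ↥(modularFunctionFieldFull N)} (h : S ⊆ S')
    {y : LaurentSeries A} (hy : IsChartInt ℓ A N S y) : IsChartInt ℓ A N S' y :=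
  chartSpan_mono ℓ A N h hy

omit [Fact ℓ.Prime] [NeZero N] in
theorem coeffMap_subtype_jqModC :
    coeffMap A.subtype (jqModC A) = coeffEmb (AlgebraicClosure ℚ) jq := by
  rw [coeffMap_jqModC, coeffEmb, ← jqModC_rat, coeffMap_jqModC]

theorem isIntFin_j : IsIntFin ℓ A N (jqModC A) := by
  show coeffMap A.subtype (jqModC A) ∈ chartSpan ℓ A N {jFull N}
  rw [coeffMap_subtype_jqModC]
  exact gen_mem_chartSpan ℓ A N _ (jChartFin N ℓ)

/-- `j` is a unit of `R((q))` for every commutative ring `R`. -/
theorem isUnit_jqModC (R : Type*) [CommRing R] : IsUnit (jqModC R) := by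
  unfold jqModC
  refine IsUnit.mul ?_ ?_
  · refine IsUnit.of_mul_eq_one (HahnSeries.single (1 : ℤ) (1 : R)) ?_
    rw [HahnSeries.single_mul_single]
    simp
  · apply IsUnit.map
    rw [PowerSeries.isUnit_iff_constantCoeff]
    have : PowerSeries.constantCoeff (PowerSeries.map (Int.castRingHom R) jNum) = 1 := by
      rw [← PowerSeries.coeff_zero_eq_constantCoeff, PowerSeries.coeff_map,
        PowerSeries.coeff_zero_eq_constantCoeff, constantCoeff_jNum, map_one]
    rw [this]
    exact isUnit_one

omit [Fact ℓ.Prime] [NeZero N] in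
theorem jinvA_mul_j : jinvA A * jqModC A = 1 :=
  Ring.inverse_mul_cancel _ (isUnit_jqModC A)

omit [Fact ℓ.Prime] [NeZero N] in
theorem coeffMap_subtype_jinvA :
    coeffMap A.subtype (jinvA A) = coeffEmb (AlgebraicClosure ℚ) jq⁻¹ := by
  have h := congrArg (coeffMap A.subtype) (jinvA_mul_j A)
  rw [map_mul, map_one, coeffMap_subtype_jqModC] at h
  rw [map_inv₀]
  exact eq_inv_of_mul_eq_one_left h

theorem isIntInf_jinv : IsIntInf ℓ A N (jinvA A) := by
  show coeffMap A.subtype (jinvA A) ∈ chartSpan ℓ A N {(jFull N)⁻¹}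
  rw [coeffMap_subtype_jinvA]
  exact gen_mem_chartSpan ℓ A N _ (jInvChartInf N ℓ)

end Fermat.Agent.S18.RED9269
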